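/-
MAZUR (Track M), package (G), piece NP (helper7), part 2: Laurent series without polar part,
products of linear factors with such roots, and the factorisation of `X^n - 1` over a primitive
root of unity.  Auxiliary to the computation of the coefficient shape of `Ψ_p`.
-/
import Fermat.Agent.Lib.Igusa.ModPoly

set_option autoImplicit false

open HahnSeries Polynomial ModularCurve Fermat.Agent.Igusa

namespace Fermat.Agent.Mazur

section PS

variable {K : Type*} [CommRing K]

/-- "no polar part": all coefficients of negative index vanish -/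
def MzgIsPS (f : LaurentSeries K) : Prop := ∀ n : ℤ, n < 0 → f.coeff n = 0

theorem mzgIsPS_ofPowerSeries (w : PowerSeries K) : MzgIsPS (HahnSeries.ofPowerSeries ℤ K w) :=
  fun _ hn => ofPowerSeries_coeff_of_neg w hn

/-- a Laurent series without polar part is a power series -/
theorem MzgIsPS.exists_eq {f : LaurentSeries K} (hf : MzgIsPS f) :
    ∃ w : PowerSeries K, HahnSeries.ofPowerSeries ℤ K w = f ∧
      PowerSeries.constantCoeff w = f.coeff 0 := by
  refine ⟨PowerSeries.mk fun n => f.coeff (n : ℤ), ?_, ?_⟩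
  · ext n
    rcases lt_or_ge n 0 with hn | hn
    · rw [ofPowerSeries_coeff_of_neg _ hn, hf n hn]
    · obtain ⟨m, rfl⟩ := Int.eq_ofNat_of_zero_le hn
      rw [HahnSeries.ofPowerSeries_apply_coeff, PowerSeries.coeff_mk]
  · rw [← PowerSeries.coeff_zero_eq_constantCoeff_apply, PowerSeries.coeff_mk]
    rfl

theorem MzgIsPS.mul {f g : LaurentSeries K} (hf : MzgIsPS f) (hg : MzgIsPS g) :
    MzgIsPS (f * g) := by
  obtain ⟨w, rfl, -⟩ := hf.exists_eq
  obtain ⟨w', rfl, -⟩ := hg.exists_eq
  rw [← map_mul]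
  exact mzgIsPS_ofPowerSeries _

theorem MzgIsPS.coeff_zero_mul {f g : LaurentSeries K} (hf : MzgIsPS f) (hg : MzgIsPS g) :
    (f * g).coeff 0 = f.coeff 0 * g.coeff 0 :=
  coeff_zero_mul_of_nonneg K hf hg

theorem mzgIsPS_one : MzgIsPS (1 : LaurentSeries K) := by
  have := mzgIsPS_ofPowerSeries (1 : PowerSeries K)
  rwa [map_one] at this

theorem mzgIsPS_prod {ι : Type*} (s : Finset ι) (f : ι → LaurentSeries K)
    (h : ∀ i ∈ s, MzgIsPS (f i)) : MzgIsPS (∏ i ∈ s, f i) := by
  classical
  induction s using Finset.induction_on with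
  | empty => rw [Finset.prod_empty]; exact mzgIsPS_one
  | insert a s ha ih =>
    rw [Finset.prod_insert ha]
    exact (h a (Finset.mem_insert_self a s)).mul
      (ih fun i hi => h i (Finset.mem_insert_of_mem hi))

theorem mzg_coeff_zero_prod {ι : Type*} (s : Finset ι) (f : ι → LaurentSeries K)
    (h : ∀ i ∈ s, MzgIsPS (f i)) : (∏ i ∈ s, f i).coeff 0 = ∏ i ∈ s, (f i).coeff 0 := by
  classical
  induction s using Finset.induction_on with
  | empty =>
    rw [Finset.prod_empty, Finset.prod_empty, HahnSeries.coeff_one, if_pos rfl]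
  | insert a s ha ih =>
    rw [Finset.prod_insert ha, Finset.prod_insert ha,
      (h a (Finset.mem_insert_self a s)).coeff_zero_mul
        (mzgIsPS_prod s f fun i hi => h i (Finset.mem_insert_of_mem hi)),
      ih fun i hi => h i (Finset.mem_insert_of_mem hi)]

theorem MzgIsPS.qExpand {f : LaurentSeries K} (hf : MzgIsPS f) (r : ℕ) [NeZero r] :
    MzgIsPS (qExpand K r f) := by
  intro j hj
  by_cases hd : (r : ℤ) ∣ j
  · obtain ⟨m, rfl⟩ := hd
    rw [qExpand_coeff_mul]
    apply hf
    have hr : (0 : ℤ) < r := by exact_mod_cast Nat.pos_of_ne_zero (NeZero.ne r)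
    by_contra hm
    rw [not_lt] at hm
    have := mul_nonneg hr.le hm
    omega
  · exact qExpand_coeff_of_not_dvd r _ hd

theorem mzg_qExpand_coeff_zero (f : LaurentSeries K) (r : ℕ) [NeZero r] :
    (qExpand K r f).coeff 0 = f.coeff 0 := by
  have := qExpand_coeff_mul (R := K) r f 0
  rwa [mul_zero] at this

/-- coefficients of `T^a c · g` for `g` without polar part -/
theorem MzgIsPS.coeff_single_mul_of_lt {g : LaurentSeries K} (hg : MzgIsPS g) (a : ℤ) (c : K)
    {n : ℤ} (hn : n < a) : (HahnSeries.single a c * g).coeff n = 0 := by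
  rw [HahnSeries.coeff_single_mul, hg (n - a) (by omega), mul_zero]

theorem mzg_coeff_single_mul_self (g : LaurentSeries K) (a : ℤ) (c : K) :
    (HahnSeries.single a c * g).coeff a = c * g.coeff 0 := by
  rw [HahnSeries.coeff_single_mul, sub_self]

theorem MzgIsPS.single_mul {g : LaurentSeries K} (hg : MzgIsPS g) {a : ℤ} (ha : 0 ≤ a) (c : K) :
    MzgIsPS (HahnSeries.single a c * g) :=
  fun _ hn => hg.coeff_single_mul_of_lt a c (by omega)

end PS

section Lin

variable {K : Type*} [CommRing K]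

/-- the coefficients of a product of linear factors with roots without polar part have no polar
part, and their constant terms are the coefficients of the product of the reduced factors -/
theorem mzg_prod_linear_isPS {ι : Type*} (s : Finset ι) (z : ι → LaurentSeries K)
    (hz : ∀ i ∈ s, MzgIsPS (z i)) (n : ℕ) :
    MzgIsPS ((∏ i ∈ s, (X - Polynomial.C (z i))).coeff n) ∧
      ((∏ i ∈ s, (X - Polynomial.C (z i))).coeff n).coeff 0
        = (∏ i ∈ s, (X - Polynomial.C ((z i).coeff 0))).coeff n := by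
  classical
  have hw : ∀ i : ι, ∃ w : PowerSeries K, i ∈ s →
      (HahnSeries.ofPowerSeries ℤ K w = z i ∧ PowerSeries.constantCoeff w = (z i).coeff 0) := by
    intro i
    by_cases hi : i ∈ s
    · obtain ⟨w, h1, h2⟩ := (hz i hi).exists_eq
      exact ⟨w, fun _ => ⟨h1, h2⟩⟩
    · exact ⟨0, fun h => absurd h hi⟩
  choose w hw using hw
  have h1 : ∏ i ∈ s, (X - Polynomial.C (z i))
      = (∏ i ∈ s, (X - Polynomial.C (w i))).map (HahnSeries.ofPowerSeries ℤ K) := by
    rw [Polynomial.map_prod]
    refine Finset.prod_congr rfl fun i hi => ?_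
    rw [Polynomial.map_sub, Polynomial.map_X, Polynomial.map_C, (hw i hi).1]
  have h2 : ∏ i ∈ s, (X - Polynomial.C ((z i).coeff 0))
      = (∏ i ∈ s, (X - Polynomial.C (w i))).map (PowerSeries.constantCoeff (R := K)) := by
    rw [Polynomial.map_prod]
    refine Finset.prod_congr rfl fun i hi => ?_
    rw [Polynomial.map_sub, Polynomial.map_X, Polynomial.map_C, (hw i hi).2]
  rw [h1, h2, Polynomial.coeff_map, Polynomial.coeff_map]
  refine ⟨mzgIsPS_ofPowerSeries _, ?_⟩
  rw [show (0 : ℤ) = ((0 : ℕ) : ℤ) from rfl, HahnSeries.ofPowerSeries_apply_coeff,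
    PowerSeries.coeff_zero_eq_constantCoeff_apply]

end Lin

section Roots

variable {K : Type*} [CommRing K] [IsDomain K]

/-- `∏_{b < n} (X - ζ^b) = X^n - 1` for a primitive `n`-th root of unity `ζ` -/
theorem mzg_prod_X_sub_pow {n : ℕ} (hn : 0 < n) {ζ : K} (hζ : IsPrimitiveRoot ζ n) :
    ∏ b ∈ Finset.range n, (X - Polynomial.C (ζ ^ b)) = (X ^ n - 1 : K[X]) := by
  have hmonic : (X ^ n - Polynomial.C (1 : K)).Monic := monic_X_pow_sub_C 1 hn.ne'
  have hdeg : (X ^ n - Polynomial.C (1 : K)).natDegree = n := natDegree_X_pow_sub_C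
  have hroots : (X ^ n - Polynomial.C (1 : K)).roots = nthRoots n (1 : K) := rfl
  have hC1 : (Polynomial.C (1 : K)) = 1 := map_one _
  have hcard : (X ^ n - Polynomial.C (1 : K)).roots.card = (X ^ n - Polynomial.C (1 : K)).natDegree := by
    rw [hroots, hζ.card_nthRoots_one, hdeg]
  have h := Polynomial.C_leadingCoeff_mul_prod_multiset_X_sub_C hcard
  rw [hmonic.leadingCoeff, hC1, one_mul] at h
  have hroots' : (X ^ n - 1 : K[X]).roots = nthRoots n (1 : K) := by
    rw [nthRoots, hC1]
  rw [hroots', hζ.nthRoots_eq (one_pow n), Multiset.map_map] at h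
  rw [← h, Finset.prod_eq_multiset_prod, Finset.range_val]
  congr 1
  refine Multiset.map_congr rfl fun b _ => ?_
  simp

theorem mzg_prod_pow_primitive {n : ℕ} (hn : 0 < n) {ζ : K} (hζ : IsPrimitiveRoot ζ n) :
    ∏ b ∈ Finset.range n, ζ ^ b = (-1) ^ (n + 1) := by
  have h := congrArg (fun q : K[X] => q.eval 0) (mzg_prod_X_sub_pow hn hζ)
  simp only [eval_prod, eval_sub, eval_X, eval_C, zero_sub, eval_pow, eval_one,
    zero_pow hn.ne'] at h
  rw [Finset.prod_neg, Finset.card_range] at h
  have h3 : ((-1 : K) ^ n) * (-1) ^ n = 1 := by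
    rw [← mul_pow]
    simp
  calc ∏ b ∈ Finset.range n, ζ ^ b
      = ((-1 : K) ^ n * (-1) ^ n) * ∏ b ∈ Finset.range n, ζ ^ b := by rw [h3, one_mul]
    _ = (-1 : K) ^ n * ((-1) ^ n * ∏ b ∈ Finset.range n, ζ ^ b) := by ring
    _ = (-1) ^ (n + 1) := by rw [h, pow_succ]

end Roots

end Fermat.Agent.Mazur
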