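/-
MAZUR (Track M), package (G), piece NP (helper7), part 3: the leading behaviour of the formal
modular units `unitFinLS K r = Δ(T)/Δ(T^r)` and `unitInfLS K r = r^12 Δ(T^r)/Δ(T)`, and of the
roots of `Ψ_r(X, j(T^r))` after scaling by `T^(r-1)`.
-/
import Fermat.Agent.Lib.Mazur.G.NP.Series

set_option autoImplicit false

open HahnSeries Polynomial ModularCurve Fermat.Agent.Igusa

namespace Fermat.Agent.Mazur

section Units

variable (K : Type*) [CommRing K] (r : ℕ) [NeZero r]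

/-- the power-series part of `Δ` -/
noncomputable def mzgEta : LaurentSeries K :=
  HahnSeries.ofPowerSeries ℤ K (dedekindEtaUnit.map (Int.castRingHom K))

/-- the power-series part of `Δ⁻¹` -/
noncomputable def mzgEtaInv : LaurentSeries K :=
  HahnSeries.ofPowerSeries ℤ K (dedekindEtaUnitInv.map (Int.castRingHom K))

theorem mzgEta_isPS : MzgIsPS (mzgEta K) := mzgIsPS_ofPowerSeries _

theorem mzgEtaInv_isPS : MzgIsPS (mzgEtaInv K) := mzgIsPS_ofPowerSeries _

theorem mzgEta_coeff_zero : (mzgEta K).coeff 0 = 1 := by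
  rw [mzgEta, show (0 : ℤ) = ((0 : ℕ) : ℤ) from rfl, HahnSeries.ofPowerSeries_apply_coeff,
    PowerSeries.coeff_map, PowerSeries.coeff_zero_eq_constantCoeff, constantCoeff_dedekindEtaUnit]
  simp

theorem mzgEtaInv_coeff_zero : (mzgEtaInv K).coeff 0 = 1 := by
  rw [mzgEtaInv, show (0 : ℤ) = ((0 : ℕ) : ℤ) from rfl, HahnSeries.ofPowerSeries_apply_coeff,
    PowerSeries.coeff_map, PowerSeries.coeff_zero_eq_constantCoeff,
    constantCoeff_dedekindEtaUnitInv]
  simp

/-- the unit part of `Δ(T)/Δ(T^r)` -/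
noncomputable def mzgGF : LaurentSeries K := mzgEta K * qExpand K r (mzgEtaInv K)

/-- the unit part of `r^12 Δ(T^r)/Δ(T)` -/
noncomputable def mzgGI : LaurentSeries K := qExpand K r (mzgEta K) * mzgEtaInv K

theorem mzgGF_isPS : MzgIsPS (mzgGF K r) := (mzgEta_isPS K).mul ((mzgEtaInv_isPS K).qExpand r)

theorem mzgGI_isPS : MzgIsPS (mzgGI K r) := ((mzgEta_isPS K).qExpand r).mul (mzgEtaInv_isPS K)

theorem mzgGF_coeff_zero : (mzgGF K r).coeff 0 = 1 := by
  rw [mzgGF, (mzgEta_isPS K).coeff_zero_mul ((mzgEtaInv_isPS K).qExpand r), mzgEta_coeff_zero,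
    mzg_qExpand_coeff_zero, mzgEtaInv_coeff_zero, one_mul]

theorem mzgGI_coeff_zero : (mzgGI K r).coeff 0 = 1 := by
  rw [mzgGI, ((mzgEta_isPS K).qExpand r).coeff_zero_mul (mzgEtaInv_isPS K),
    mzg_qExpand_coeff_zero, mzgEta_coeff_zero, mzgEtaInv_coeff_zero, one_mul]

theorem mzg_unitFinLS_eq :
    unitFinLS K r = HahnSeries.single (1 - (r : ℤ)) (1 : K) * mzgGF K r := by
  rw [unitFinLS, deltaLS, deltaInvLS, map_mul, qExpand_single, mzgGF, mzgEta, mzgEtaInv]
  have : HahnSeries.single (1 - (r : ℤ)) (1 : K) =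
      HahnSeries.single (1 : ℤ) (1 : K) * HahnSeries.single ((r : ℤ) * (-1)) (1 : K) := by
    rw [HahnSeries.single_mul_single, one_mul, mul_neg_one, ← sub_eq_add_neg]
  rw [this]
  ring

theorem mzg_unitInfLS_eq :
    unitInfLS K r = HahnSeries.single ((r : ℤ) - 1) ((r : K) ^ 12) * mzgGI K r := by
  rw [unitInfLS, deltaLS, deltaInvLS, map_mul, qExpand_single, mzgGI, mzgEta, mzgEtaInv]
  have : HahnSeries.single ((r : ℤ) - 1) ((r : K) ^ 12) =
      HahnSeries.C ((r : K) ^ 12) * (HahnSeries.single ((r : ℤ) * 1) (1 : K) *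
        HahnSeries.single (-1 : ℤ) (1 : K)) := by
    rw [HahnSeries.single_mul_single, one_mul, HahnSeries.C_apply, HahnSeries.single_mul_single,
      mul_one, zero_add, mul_one, ← sub_eq_add_neg]
  rw [this]
  ring

theorem mzg_unitFinLS_coeff_of_lt {m : ℤ} (hm : m < 1 - (r : ℤ)) :
    (unitFinLS K r).coeff m = 0 := by
  rw [mzg_unitFinLS_eq]
  exact (mzgGF_isPS K r).coeff_single_mul_of_lt _ _ hm

end Units

section Twist
set_option linter.unusedSectionVars false

variable {K : Type*} [CommRing K] (r : ℕ) [NeZero r]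

/-- `T^(r-1)` -/
noncomputable def mzgS : LaurentSeries K := HahnSeries.single ((r : ℤ) - 1) (1 : K)

/-- `T^(1-r)` -/
noncomputable def mzgSInv : LaurentSeries K := HahnSeries.single (1 - (r : ℤ)) (1 : K)

theorem mzgS_mul_inv : (mzgS r : LaurentSeries K) * mzgSInv r = 1 := by
  rw [mzgS, mzgSInv, HahnSeries.single_mul_single, one_mul]
  have : (r : ℤ) - 1 + (1 - (r : ℤ)) = 0 := by ring
  rw [this]
  rfl

/-- the scaled twisted roots `T^(r-1) · f(ζ T)` have no polar part and constant term `ζ^(1-r)` -/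
theorem mzg_scaled_twist_isPS (ζ : Kˣ) :
    MzgIsPS (mzgS r * lsTwist ζ (unitFinLS K r)) := by
  intro n hn
  rw [mzgS, HahnSeries.coeff_single_mul, one_mul, lsTwist_coeff,
    mzg_unitFinLS_coeff_of_lt K r (by omega), mul_zero]

theorem mzg_scaled_twist_coeff_zero (ζ : Kˣ) :
    (mzgS r * lsTwist ζ (unitFinLS K r)).coeff 0 = ((ζ ^ (1 - (r : ℤ)) : Kˣ) : K) := by
  rw [mzgS, HahnSeries.coeff_single_mul, one_mul, lsTwist_coeff]
  have h : (0 : ℤ) - ((r : ℤ) - 1) = 1 - (r : ℤ) := by ring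
  rw [h, unitFinLS_coeff, mul_one]

/-- the scaled root at infinity `T^(r-1) · U_∞(T^r) = T^((r-1)(r+1)) r^12 · (unit)` -/
theorem mzg_scaled_inf_eq :
    (mzgS r : LaurentSeries K) * qExpand K r (unitInfLS K r)
      = HahnSeries.single (((r : ℤ) - 1) * ((r : ℤ) + 1)) ((r : K) ^ 12)
          * qExpand K r (mzgGI K r) := by
  rw [mzg_unitInfLS_eq, map_mul, qExpand_single, mzgS, ← mul_assoc, HahnSeries.single_mul_single,
    one_mul]
  congr 2
  ring_nf

theorem mzg_scaled_inf_isPS (hr : 1 ≤ r) :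
    MzgIsPS ((mzgS r : LaurentSeries K) * qExpand K r (unitInfLS K r)) := by
  rw [mzg_scaled_inf_eq]
  refine ((mzgGI_isPS K r).qExpand r).single_mul ?_ _
  have : (1 : ℤ) ≤ r := by exact_mod_cast hr
  nlinarith

theorem mzg_scaled_inf_coeff_zero (hr : 2 ≤ r) :
    ((mzgS r : LaurentSeries K) * qExpand K r (unitInfLS K r)).coeff 0 = 0 := by
  rw [mzg_scaled_inf_eq]
  refine ((mzgGI_isPS K r).qExpand r).coeff_single_mul_of_lt _ _ ?_
  have : (2 : ℤ) ≤ r := by exact_mod_cast hr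
  nlinarith

end Twist

end Fermat.Agent.Mazur
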