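/-
MAZUR (Track M), package (G), piece NP (helper7), part 4: **the coefficient shape of `Ψ_p`**.

Write `Ψ_p = modPsi p hp = Σ_n c_n X^n ∈ ℤ[Y][X]`.  Then `c_{p+1} = 1`, `deg c_n ≤ p - n` for
`2 ≤ n ≤ p`, `c_1 = -Y^(p-1) + lower`, `c_0 = p^12`.  Proof: over a domain with a primitive `p`-th
root of unity, `Ψ_p(X, j(T^p)) = (X - U_∞(T^p)) ∏_b (X - f(ζ^b T))`; after scaling the roots by
`T^(p-1)` they become power series with constant terms `0, ζ^b`, so the scaled polynomial is
`≡ X^(p+1) - X mod T`.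
-/
import Fermat.Agent.Lib.Mazur.G.NP.Units

set_option autoImplicit false
set_option linter.unusedSectionVars false

open HahnSeries Polynomial ModularCurve Fermat.Agent.Igusa

namespace Fermat.Agent.Mazur

section Scale

variable {R : Type*} [CommRing R]

theorem mzg_prod_scale {ι : Type*} (S : Finset ι) (r : ι → R) (s t : R) (hst : s * t = 1) :
    ∏ i ∈ S, (X - Polynomial.C (s * r i))
      = Polynomial.C (s ^ S.card) *
          (∏ i ∈ S, (X - Polynomial.C (r i))).comp (Polynomial.C t * X) := by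
  rw [Polynomial.prod_comp, map_pow, ← Finset.prod_const, ← Finset.prod_mul_distrib]
  refine Finset.prod_congr rfl fun i _ => ?_
  rw [sub_comp, X_comp, C_comp, mul_sub, ← mul_assoc, ← map_mul, hst, map_one, one_mul, map_mul]

theorem mzg_coeff_prod_scale {ι : Type*} (S : Finset ι) (r : ι → R) (s t : R) (hst : s * t = 1)
    (n : ℕ) :
    (∏ i ∈ S, (X - Polynomial.C (s * r i))).coeff n
      = s ^ S.card * ((∏ i ∈ S, (X - Polynomial.C (r i))).coeff n * t ^ n) := by
  rw [mzg_prod_scale S r s t hst, coeff_C_mul, comp_C_mul_X_coeff]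

end Scale

section Main

variable (p : ℕ) [NeZero p] (hp : p.Prime) (K : Type*) [CommRing K] [IsDomain K]
  {ζ : Kˣ} (hζ : IsPrimitiveRoot ζ p)

/-- the roots of `Ψ_p(X, j(T^p))`, indexed by `b ≤ p` (`b = p` is the root at infinity) -/
noncomputable def mzgRoot (ζ : Kˣ) (b : ℕ) : LaurentSeries K :=
  if b < p then lsTwist (ζ ^ b) (unitFinLS K p) else qExpand K p (unitInfLS K p)

/-- the specialisation `Y ↦ j(T^p)` -/
noncomputable def mzgPhi : Polynomial K →+* LaurentSeries K := (qExpand K p).comp (evalJ K)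

include hζ in
theorem mzg_modPsiK_map :
    (modPsiK p hp K).map (mzgPhi p K)
      = ∏ b ∈ Finset.range (p + 1), (X - Polynomial.C (mzgRoot p K ζ b)) := by
  rw [mzgPhi, modPsiK_roots p hp K hζ, Finset.prod_range_succ, mul_comm]
  congr 1
  · refine Finset.prod_congr rfl fun b hb => ?_
    rw [mzgRoot, if_pos (Finset.mem_range.mp hb)]
  · rw [mzgRoot, if_neg (lt_irrefl p)]

include hp in
theorem mzg_two_le : 2 ≤ p := hp.two_le

include hζ in
theorem mzg_zeta_zpow (b : ℕ) : (((ζ ^ b) ^ (1 - (p : ℤ)) : Kˣ) : K) = ((ζ : K)) ^ b := by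
  have h1 : (ζ ^ b) ^ (1 - (p : ℤ)) = ζ ^ b := by
    have h2 : (ζ ^ b) ^ p = 1 := by
      rw [← pow_mul, mul_comm, pow_mul, hζ.pow_eq_one, one_pow]
    rw [zpow_sub, zpow_one, zpow_natCast, h2, inv_one, mul_one]
  rw [h1, Units.val_pow_eq_pow_val]

include hp in
theorem mzg_scaled_isPS (b : ℕ) : MzgIsPS (mzgS p * mzgRoot p K ζ b) := by
  rw [mzgRoot]
  split_ifs with hb
  · exact mzg_scaled_twist_isPS p _
  · exact mzg_scaled_inf_isPS p (by have := mzg_two_le p hp; omega)

include hp hζ in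
theorem mzg_scaled_coeff_zero (b : ℕ) :
    (mzgS p * mzgRoot p K ζ b).coeff 0 = if b < p then (ζ : K) ^ b else 0 := by
  rw [mzgRoot]
  split_ifs with hb
  · rw [mzg_scaled_twist_coeff_zero, mzg_zeta_zpow p K hζ]
  · exact mzg_scaled_inf_coeff_zero p (mzg_two_le p hp)

include hp hζ in
/-- the reduction mod `T` of the scaled polynomial is `X^(p+1) - X` -/
theorem mzg_reduced_prod :
    ∏ b ∈ Finset.range (p + 1), (X - Polynomial.C ((mzgS p * mzgRoot p K ζ b).coeff 0))
      = (X ^ (p + 1) - X : K[X]) := by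
  rw [Finset.prod_range_succ, mzg_scaled_coeff_zero p hp K hζ p, if_neg (lt_irrefl p), map_zero,
    sub_zero]
  have h1 : ∏ b ∈ Finset.range p, (X - Polynomial.C ((mzgS p * mzgRoot p K ζ b).coeff 0))
      = ∏ b ∈ Finset.range p, (X - Polynomial.C ((ζ : K) ^ b)) := by
    refine Finset.prod_congr rfl fun b hb => ?_
    rw [mzg_scaled_coeff_zero p hp K hζ b, if_pos (Finset.mem_range.mp hb)]
  have hζ' : IsPrimitiveRoot (ζ : K) p := hζ.map_of_injective Units.coeHom_injective
  rw [h1, mzg_prod_X_sub_pow hp.pos hζ']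
  ring

/-- the exponent `e_n = (p-1)(p+1-n)` -/
def mzgE (n : ℕ) : ℤ := ((p : ℤ) - 1) * ((p : ℤ) + 1 - n)

include hζ in
/-- the scaled coefficient: `q_n = T^(e_n) · c_n(j(T^p))` -/
theorem mzg_scaled_coeff (n : ℕ) :
    (∏ b ∈ Finset.range (p + 1), (X - Polynomial.C (mzgS p * mzgRoot p K ζ b))).coeff n
      = HahnSeries.single (mzgE p n) (1 : K) * mzgPhi p K ((modPsiK p hp K).coeff n) := by
  rw [mzg_coeff_prod_scale _ _ (mzgS p) (mzgSInv p) (mzgS_mul_inv p), ← mzg_modPsiK_map p hp K hζ,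
    Polynomial.coeff_map, Finset.card_range, mzgS, mzgSInv, HahnSeries.single_pow,
    HahnSeries.single_pow, one_pow, one_pow, mul_comm (mzgPhi p K _), ← mul_assoc,
    HahnSeries.single_mul_single, one_mul]
  congr 2
  rw [mzgE]
  simp only [nsmul_eq_mul]
  push_cast
  ring_nf

include hp hζ in
/-- **the key coefficient statement**: `c_n(j(T^p))` has order `≥ -e_n`, and its coefficient at
`-e_n` is that of `X^(p+1) - X` -/
theorem mzg_phi_coeff (n : ℕ) :
    (∀ m : ℤ, m < -mzgE p n → (mzgPhi p K ((modPsiK p hp K).coeff n)).coeff m = 0) ∧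
      (mzgPhi p K ((modPsiK p hp K).coeff n)).coeff (-mzgE p n)
        = (X ^ (p + 1) - X : K[X]).coeff n := by
  obtain ⟨h1, h2⟩ := mzg_prod_linear_isPS (Finset.range (p + 1))
    (fun b => mzgS p * mzgRoot p K ζ b) (fun b _ => mzg_scaled_isPS p hp K b) n
  rw [mzg_scaled_coeff p hp K hζ n] at h1 h2
  rw [mzg_reduced_prod p hp K hζ] at h2
  constructor
  · intro m hm
    have := h1 (m + mzgE p n) (by omega)
    rwa [HahnSeries.coeff_single_mul, one_mul, add_sub_cancel_right] at this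
  · rw [← h2, HahnSeries.coeff_single_mul, one_mul, zero_sub]

end Main

end Fermat.Agent.Mazur
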