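/-
MAZUR (Track M), package (G), piece NP (helper7), part 5: degrees and leading coefficients of the
coefficients of `Ψ_p`, over a domain with a primitive `p`-th root of unity, then over `ℤ`.
-/
import Fermat.Agent.Lib.Mazur.G.NP.Coeff

set_option autoImplicit false
set_option linter.unusedSectionVars false

open HahnSeries Polynomial ModularCurve Fermat.Agent.Igusa

namespace Fermat.Agent.Mazur

section EvalJ

variable {K : Type*} [CommRing K]

theorem mzg_coeff_evalJ_of_lt (c : K[X]) {m : ℤ} (hm : m < -(c.natDegree : ℤ)) :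
    (evalJ K c).coeff m = 0 := by
  rw [evalJ_apply, Polynomial.eval₂_eq_sum_range, HahnSeries.coeff_sum]
  refine Finset.sum_eq_zero fun k hk => ?_
  have hk' : k ≤ c.natDegree := Nat.lt_succ_iff.mp (Finset.mem_range.mp hk)
  rw [HahnSeries.C_mul_eq_smul, HahnSeries.coeff_smul, coeff_jqModC_pow_of_lt K (by omega),
    smul_zero]

variable (p : ℕ) [NeZero p]

theorem mzgPhi_coeff_mul (c : K[X]) (m : ℤ) :
    (mzgPhi p K c).coeff ((p : ℤ) * m) = (evalJ K c).coeff m := by
  rw [mzgPhi, RingHom.comp_apply, qExpand_coeff_mul]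

/-- order bound ⇒ degree bound -/
theorem mzg_natDegree_le_of_phi {c : K[X]} (hc : c ≠ 0) {E : ℤ}
    (h : ∀ m : ℤ, m < -E → (mzgPhi p K c).coeff m = 0) : (p : ℤ) * c.natDegree ≤ E := by
  by_contra hcon
  push Not at hcon
  have h1 := h ((p : ℤ) * (-(c.natDegree : ℤ))) (by linarith)
  rw [mzgPhi_coeff_mul, coeff_evalJ] at h1
  exact hc (leadingCoeff_eq_zero.mp h1)

end EvalJ

section Main

variable (p : ℕ) [NeZero p] (hp : p.Prime) (K : Type*) [CommRing K] [IsDomain K]
  {ζ : Kˣ} (hζ : IsPrimitiveRoot ζ p)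

include hζ in
/-- middle coefficients: `deg c_n ≤ p - n` for `2 ≤ n ≤ p` -/
theorem mzg_modPsiK_coeff_mid {n : ℕ} (_hn2 : 2 ≤ n) (hnp : n ≤ p) :
    ((modPsiK p hp K).coeff n).natDegree ≤ p - n := by
  by_cases hc : (modPsiK p hp K).coeff n = 0
  · rw [hc, natDegree_zero]
    exact Nat.zero_le _
  have h := mzg_natDegree_le_of_phi p hc (mzg_phi_coeff p hp K hζ n).1
  rw [mzgE] at h
  have hp2 : (2 : ℤ) ≤ p := by exact_mod_cast hp.two_le
  have hn' : (n : ℤ) ≤ p := by exact_mod_cast hnp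
  have h3 : (((modPsiK p hp K).coeff n).natDegree : ℤ) < (p : ℤ) + 1 - n := by
    by_contra hcon
    push Not at hcon
    nlinarith
  omega

include hζ in
/-- the linear coefficient: `c_1 = -Y^(p-1) + lower` -/
theorem mzg_modPsiK_coeff_one :
    ((modPsiK p hp K).coeff 1).natDegree = p - 1 ∧
      ((modPsiK p hp K).coeff 1).leadingCoeff = -1 := by
  obtain ⟨h1, h2⟩ := mzg_phi_coeff p hp K hζ 1
  have hp2 : 2 ≤ p := hp.two_le
  have hX : (X ^ (p + 1) - X : K[X]).coeff 1 = -1 := by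
    rw [Polynomial.coeff_sub, coeff_X_pow, coeff_X_one, if_neg (by omega)]
    ring
  rw [hX] at h2
  have hE : mzgE p 1 = (p : ℤ) * ((p : ℤ) - 1) := by
    rw [mzgE]
    push_cast
    ring
  have hc : (modPsiK p hp K).coeff 1 ≠ 0 := by
    intro h0
    rw [h0, map_zero, HahnSeries.coeff_zero] at h2
    exact (neg_ne_zero.mpr one_ne_zero) h2.symm
  have hle := mzg_natDegree_le_of_phi p hc h1
  rw [hE] at hle
  have hp0 : (0 : ℤ) < p := by exact_mod_cast hp.pos
  have hle' : (((modPsiK p hp K).coeff 1).natDegree : ℤ) ≤ (p : ℤ) - 1 :=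
    le_of_mul_le_mul_left hle hp0
  have h3 : (evalJ K ((modPsiK p hp K).coeff 1)).coeff (-((p : ℤ) - 1)) = -1 := by
    rw [← mzgPhi_coeff_mul p, ← h2, hE]
    congr 1
    ring
  have hdeg : (((modPsiK p hp K).coeff 1).natDegree : ℤ) = (p : ℤ) - 1 := by
    by_contra hne
    have hlt : -((p : ℤ) - 1) < -(((modPsiK p hp K).coeff 1).natDegree : ℤ) := by omega
    rw [mzg_coeff_evalJ_of_lt _ hlt] at h3
    exact (neg_ne_zero.mpr one_ne_zero) h3.symm
  refine ⟨by omega, ?_⟩
  rw [← coeff_evalJ, hdeg]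
  exact h3

include hp hζ in
/-- the product of all scaled roots: order exactly `e_0`, leading coefficient `(-1)^(p+1) p^12` -/
theorem mzg_scaled_prod :
    ∃ G : LaurentSeries K, MzgIsPS G ∧ G.coeff 0 = (-1) ^ (p + 1) ∧
      ∏ b ∈ Finset.range (p + 1), (mzgS p * mzgRoot p K ζ b)
        = HahnSeries.single (mzgE p 0) ((p : K) ^ 12) * G := by
  refine ⟨qExpand K p (mzgGI K p) * ∏ b ∈ Finset.range p, (mzgS p * mzgRoot p K ζ b), ?_, ?_, ?_⟩
  · exact ((mzgGI_isPS K p).qExpand p).mul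
      (mzgIsPS_prod _ _ fun b _ => mzg_scaled_isPS p hp K b)
  · rw [((mzgGI_isPS K p).qExpand p).coeff_zero_mul
        (mzgIsPS_prod _ _ fun b _ => mzg_scaled_isPS p hp K b),
      mzg_qExpand_coeff_zero, mzgGI_coeff_zero, one_mul,
      mzg_coeff_zero_prod _ _ fun b _ => mzg_scaled_isPS p hp K b]
    have h1 : ∏ b ∈ Finset.range p, (mzgS p * mzgRoot p K ζ b).coeff 0
        = ∏ b ∈ Finset.range p, (ζ : K) ^ b := by
      refine Finset.prod_congr rfl fun b hb => ?_
      rw [mzg_scaled_coeff_zero p hp K hζ b, if_pos (Finset.mem_range.mp hb)]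
    have hζ' : IsPrimitiveRoot (ζ : K) p := hζ.map_of_injective Units.coeHom_injective
    rw [h1, mzg_prod_pow_primitive hp.pos hζ']
  · rw [Finset.prod_range_succ]
    have h2 : mzgS p * mzgRoot p K ζ p
        = HahnSeries.single (mzgE p 0) ((p : K) ^ 12) * qExpand K p (mzgGI K p) := by
      rw [mzgRoot, if_neg (lt_irrefl p), mzg_scaled_inf_eq, mzgE]
      congr 2
    rw [h2]
    ring

include hp hζ in
/-- the constant coefficient: `c_0 = p^12` -/
theorem mzg_modPsiK_coeff_zero :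
    (modPsiK p hp K).coeff 0 = Polynomial.C ((p : K) ^ 12) := by
  obtain ⟨G, hG, hG0, hprod⟩ := mzg_scaled_prod p hp K hζ
  -- the constant coefficient of the scaled polynomial
  have h0 : (∏ b ∈ Finset.range (p + 1),
        (X - Polynomial.C (mzgS p * mzgRoot p K ζ b))).coeff 0
      = (-1) ^ (p + 1) * ∏ b ∈ Finset.range (p + 1), (mzgS p * mzgRoot p K ζ b) := by
    rw [coeff_zero_eq_eval_zero, eval_prod]
    simp only [eval_sub, eval_X, eval_C, zero_sub]
    rw [Finset.prod_neg, Finset.card_range]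
  rw [mzg_scaled_coeff p hp K hζ 0, hprod] at h0
  set c := (modPsiK p hp K).coeff 0 with hc
  -- coefficients of `φ(c)`
  have hcoeff : ∀ m : ℤ, (mzgPhi p K c).coeff m
      = ((-1) ^ (p + 1) * (HahnSeries.single (mzgE p 0) ((p : K) ^ 12) * G)).coeff
          (m + mzgE p 0) := by
    intro m
    rw [← h0, HahnSeries.coeff_single_mul, one_mul, add_sub_cancel_right]
  have hneg : ((-1 : LaurentSeries K) ^ (p + 1)) = HahnSeries.C ((-1 : K) ^ (p + 1)) := by
    rw [map_pow, map_neg, map_one]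
  have hcoeff' : ∀ m : ℤ, (mzgPhi p K c).coeff m
      = (-1) ^ (p + 1) * ((p : K) ^ 12 * G.coeff m) := by
    intro m
    rw [hcoeff m, hneg, HahnSeries.C_mul_eq_smul, HahnSeries.coeff_smul,
      HahnSeries.coeff_single_mul, add_sub_cancel_right, smul_eq_mul]
  have hlow : ∀ m : ℤ, m < -0 → (mzgPhi p K c).coeff m = 0 := by
    intro m hm
    rw [hcoeff' m, hG m (by omega), mul_zero, mul_zero]
  have hzero : (mzgPhi p K c).coeff 0 = (p : K) ^ 12 := by
    rw [hcoeff' 0, hG0, mul_comm ((p : K) ^ 12), ← mul_assoc, ← mul_pow]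
    simp
  by_cases hc0 : c = 0
  · -- then `p^12 = 0` in `K`
    rw [hc0, map_zero, HahnSeries.coeff_zero] at hzero
    rw [hc0, ← hzero, map_zero]
  have hle := mzg_natDegree_le_of_phi p hc0 hlow
  have hp0 : (0 : ℤ) < p := by exact_mod_cast hp.pos
  have hdeg : c.natDegree = 0 := by
    by_contra hne
    have : (1 : ℤ) ≤ c.natDegree := by exact_mod_cast Nat.one_le_iff_ne_zero.mpr hne
    nlinarith
  rw [eq_C_of_natDegree_eq_zero hdeg]
  congr 1
  have h5 := mzgPhi_coeff_mul p c 0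
  rw [mul_zero, hzero] at h5
  have h6 := coeff_evalJ c
  rw [hdeg] at h6
  simp only [Nat.cast_zero, neg_zero] at h6
  rw [h5, h6, Polynomial.leadingCoeff, hdeg]

end Main

/-! ### Descent to `ℤ` -/

section Int

variable (p : ℕ) [NeZero p] (hp : p.Prime)

/-- a primitive `p`-th root of unity in `ℂ`, as a unit -/
noncomputable def mzgZetaC : ℂˣ :=
  ((Complex.isPrimitiveRoot_exp p (NeZero.ne p)).isUnit (NeZero.ne p)).unit

theorem mzgZetaC_prim : IsPrimitiveRoot (mzgZetaC p) p := by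
  rw [← IsPrimitiveRoot.coe_units_iff]
  exact Complex.isPrimitiveRoot_exp p (NeZero.ne p)

theorem mzg_int_cast_injective : Function.Injective (Int.castRingHom ℂ) :=
  (Int.castRingHom ℂ).injective_int

theorem mzg_modPsiK_coeff (K : Type*) [CommRing K] (n : ℕ) :
    (modPsiK p hp K).coeff n = ((modPsi p hp).coeff n).map (Int.castRingHom K) := by
  rw [modPsiK, Polynomial.coeff_map]
  rfl

theorem mzg_modPsi_coeff_mid {n : ℕ} (hn2 : 2 ≤ n) (hnp : n ≤ p) :
    ((modPsi p hp).coeff n).natDegree ≤ p - n := by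
  have h := mzg_modPsiK_coeff_mid p hp ℂ (mzgZetaC_prim p) hn2 hnp
  rwa [mzg_modPsiK_coeff, natDegree_map_eq_of_injective mzg_int_cast_injective] at h

theorem mzg_modPsi_coeff_one :
    ((modPsi p hp).coeff 1).natDegree = p - 1 ∧ ((modPsi p hp).coeff 1).leadingCoeff = -1 := by
  obtain ⟨h1, h2⟩ := mzg_modPsiK_coeff_one p hp ℂ (mzgZetaC_prim p)
  rw [mzg_modPsiK_coeff] at h1 h2
  rw [natDegree_map_eq_of_injective mzg_int_cast_injective] at h1
  rw [leadingCoeff_map_of_injective mzg_int_cast_injective] at h2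
  refine ⟨h1, ?_⟩
  apply mzg_int_cast_injective
  rw [h2]
  simp

theorem mzg_modPsi_coeff_zero : (modPsi p hp).coeff 0 = Polynomial.C ((p : ℤ) ^ 12) := by
  have h := mzg_modPsiK_coeff_zero p hp ℂ (mzgZetaC_prim p)
  rw [mzg_modPsiK_coeff] at h
  apply Polynomial.map_injective _ mzg_int_cast_injective
  rw [h, Polynomial.map_C]
  simp

theorem mzg_modPsi_coeff_top : (modPsi p hp).coeff (p + 1) = 1 := by
  have h := (modPsi_monic p hp).coeff_natDegree
  rwa [modPsi_natDegree] at h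

end Int

end Fermat.Agent.Mazur
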