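/-
MAZUR (Track M), package (G), piece NP (helper7), part 1: **the abstract Newton-polygon lemma**.

For a monic polynomial `f = X^(p+1) + … + a₁ X + a₀` over a valued field with
`v(a_i) ≤ t^(p-i)` (`2 ≤ i ≤ p`), `v(a₁) = t^(p-1)`, `v(a₀) = 1`, `t > 1` (the shape of `Ψ_p(X, y)`
for `v(y) = t`), a root `u` has `v(u) · t^(p-1) = 1` (the small root, which is simple) or
`v(u)^p = t^(p-1)` (the `p` large roots).  If all coefficients are integral and `v(a₀) = 1`, every
root is a unit.  Pure ultrametric bookkeeping; no modular input.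
-/
import Mathlib

set_option autoImplicit false

open Polynomial

namespace Fermat.Agent.Mazur

section

variable {K : Type*} [Field K] {Γ₀ : Type*} [LinearOrderedCommGroupWithZero Γ₀]
  (v : Valuation K Γ₀)

/-- a strictly dominant term determines the valuation of a finite sum -/
theorem mzg_val_sum_eq_of_dominant {ι : Type*} [DecidableEq ι] (s : Finset ι) (g : ι → K) {i₀ : ι}
    (hi₀ : i₀ ∈ s) (h0 : v (g i₀) ≠ 0) (h : ∀ i ∈ s, i ≠ i₀ → v (g i) < v (g i₀)) :
    v (∑ i ∈ s, g i) = v (g i₀) := by
  rw [← Finset.add_sum_erase s g hi₀]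
  apply Valuation.map_add_eq_of_lt_left
  apply Valuation.map_sum_lt v h0
  intro i hi
  exact h i (Finset.mem_of_mem_erase hi) (Finset.ne_of_mem_erase hi)

/-- natural numbers are integral for every valuation -/
theorem mzg_val_natCast_le_one (n : ℕ) : v (n : K) ≤ 1 := by
  induction n with
  | zero => simp
  | succ n ih =>
    rw [Nat.cast_succ]
    exact (Valuation.map_add v _ _).trans (max_le ih (by rw [map_one]))

/-- integers are integral for every valuation -/
theorem mzg_val_intCast_le_one (n : ℤ) : v (n : K) ≤ 1 := by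
  rcases Int.eq_nat_or_neg n with ⟨m, rfl | rfl⟩
  · rw [Int.cast_natCast]
    exact mzg_val_natCast_le_one v m
  · rw [Int.cast_neg, Int.cast_natCast, Valuation.map_neg]
    exact mzg_val_natCast_le_one v m

/-- a finite sum with a strictly dominant term of nonzero valuation is nonzero -/
theorem mzg_sum_ne_zero_of_dominant {ι : Type*} [DecidableEq ι] (s : Finset ι) (g : ι → K) {i₀ : ι}
    (hi₀ : i₀ ∈ s) (h0 : v (g i₀) ≠ 0) (h : ∀ i ∈ s, i ≠ i₀ → v (g i) < v (g i₀)) :
    ∑ i ∈ s, g i ≠ 0 := by
  intro hs
  have := mzg_val_sum_eq_of_dominant v s g hi₀ h0 h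
  rw [hs, map_zero] at this
  exact h0 this.symm

/-- the shape of the coefficients of `Ψ_p(X, y)` when `v(y) = t > 1` -/
structure MzgNewtonShape (f : K[X]) (p : ℕ) (t : Γ₀) : Prop where
  natDegree : f.natDegree = p + 1
  lead : f.coeff (p + 1) = 1
  mid : ∀ i, 2 ≤ i → i ≤ p → v (f.coeff i) ≤ t ^ (p - i)
  one : v (f.coeff 1) = t ^ (p - 1)
  zero : v (f.coeff 0) = 1

variable {v}

theorem MzgNewtonShape.eval_eq {f : K[X]} {p : ℕ} {t : Γ₀} (h : MzgNewtonShape v f p t) (u : K) :
    f.eval u = ∑ i ∈ Finset.range (p + 2), f.coeff i * u ^ i := by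
  rw [eval_eq_sum_range, h.natDegree]

theorem MzgNewtonShape.root_ne_zero {f : K[X]} {p : ℕ} {t : Γ₀} (h : MzgNewtonShape v f p t)
    {u : K} (hu : f.eval u = 0) : u ≠ 0 := by
  rintro rfl
  rw [← coeff_zero_eq_eval_zero] at hu
  have := h.zero
  rw [hu, map_zero] at this
  exact zero_ne_one this

/-- valuation of the term of index `i` -/
theorem MzgNewtonShape.val_term_le {f : K[X]} {p : ℕ} {t : Γ₀} (h : MzgNewtonShape v f p t)
    (u : K) {i : ℕ} (hi2 : 2 ≤ i) (hip : i ≤ p) :
    v (f.coeff i * u ^ i) ≤ t ^ (p - i) * v u ^ i := by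
  rw [map_mul, map_pow]
  exact mul_le_mul_left (h.mid i hi2 hip) _

theorem MzgNewtonShape.val_term_top {f : K[X]} {p : ℕ} {t : Γ₀} (h : MzgNewtonShape v f p t)
    (u : K) : v (f.coeff (p + 1) * u ^ (p + 1)) = v u ^ (p + 1) := by
  rw [h.lead, one_mul, map_pow]

theorem MzgNewtonShape.val_term_one {f : K[X]} {p : ℕ} {t : Γ₀} (h : MzgNewtonShape v f p t)
    (u : K) : v (f.coeff 1 * u ^ 1) = t ^ (p - 1) * v u := by
  rw [map_mul, h.one, pow_one]

theorem MzgNewtonShape.val_term_zero {f : K[X]} {p : ℕ} {t : Γ₀} (h : MzgNewtonShape v f p t)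
    (u : K) : v (f.coeff 0 * u ^ 0) = 1 := by
  rw [pow_zero, mul_one, h.zero]

/-- **the small root**: `v(u) ≤ 1 ⇒ v(u) t^(p-1) = 1` -/
theorem MzgNewtonShape.small {f : K[X]} {p : ℕ} {t : Γ₀} (h : MzgNewtonShape v f p t)
    (hp : 2 ≤ p) (ht : 1 < t) {u : K} (hu : f.eval u = 0) (hu1 : v u ≤ 1) :
    v u * t ^ (p - 1) = 1 := by
  have hu0 : u ≠ 0 := h.root_ne_zero hu
  have hx0 : 0 < v u := by
    rw [zero_lt_iff]
    exact (map_ne_zero v).mpr hu0
  have ht0 : (0 : Γ₀) < t := lt_trans zero_lt_one ht
  have htp : 1 < t ^ (p - 1) := one_lt_pow₀ ht (by omega)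
  set B := t ^ (p - 1) * v u with hB
  have hB0 : B ≠ 0 := (mul_pos (pow_pos ht0 _) hx0).ne'
  -- all terms of index ≥ 2 are strictly smaller than the term of index 1
  have hrest : ∀ i ∈ Finset.range (p + 2), 2 ≤ i → v (f.coeff i * u ^ i) < B := by
    intro i hi hi2
    rw [Finset.mem_range] at hi
    rcases Nat.lt_or_ge p i with hip | hip
    · have : i = p + 1 := by omega
      subst this
      rw [h.val_term_top]
      calc v u ^ (p + 1) = v u ^ p * v u := pow_succ _ _
        _ ≤ 1 * v u := mul_le_mul_left (pow_le_one₀ hx0.le hu1) _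
        _ < t ^ (p - 1) * v u := mul_lt_mul_of_pos_right htp hx0
    · refine lt_of_le_of_lt (h.val_term_le u hi2 hip) ?_
      have h1 : v u ^ i = v u ^ (i - 1) * v u := by
        rw [← pow_succ]
        congr 1
        omega
      rw [h1, ← mul_assoc]
      apply mul_lt_mul_of_pos_right _ hx0
      calc t ^ (p - i) * v u ^ (i - 1) ≤ t ^ (p - i) * 1 :=
            mul_le_mul_right (pow_le_one₀ hx0.le hu1) _
        _ = t ^ (p - i) := mul_one _
        _ < t ^ (p - 1) := pow_lt_pow_right₀ ht (by omega)
  by_contra hne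
  have hne' : B ≠ 1 := by rwa [hB, mul_comm]
  rw [h.eval_eq] at hu
  rcases lt_or_gt_of_ne hne' with hlt | hgt
  · -- the constant term dominates
    refine mzg_sum_ne_zero_of_dominant v (Finset.range (p + 2)) (fun i => f.coeff i * u ^ i)
      (i₀ := 0) (Finset.mem_range.mpr (by omega)) ?_ ?_ hu
    · show v (f.coeff 0 * u ^ 0) ≠ 0
      rw [h.val_term_zero]
      exact one_ne_zero
    · intro i hi hi0
      show v (f.coeff i * u ^ i) < v (f.coeff 0 * u ^ 0)
      rw [h.val_term_zero]
      rcases Nat.lt_or_ge i 2 with hi2 | hi2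
      · have : i = 1 := by omega
        subst this
        rw [h.val_term_one]
        exact hlt
      · exact lt_trans (hrest i hi hi2) hlt
  · -- the linear term dominates
    refine mzg_sum_ne_zero_of_dominant v (Finset.range (p + 2)) (fun i => f.coeff i * u ^ i)
      (i₀ := 1) (Finset.mem_range.mpr (by omega)) ?_ ?_ hu
    · show v (f.coeff 1 * u ^ 1) ≠ 0
      rw [h.val_term_one]
      exact hB0
    · intro i hi hi1
      show v (f.coeff i * u ^ i) < v (f.coeff 1 * u ^ 1)
      rw [h.val_term_one]
      rcases Nat.lt_or_ge i 2 with hi2 | hi2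
      · have : i = 0 := by omega
        subst this
        rw [h.val_term_zero]
        exact hgt
      · exact hrest i hi hi2

/-- **the small root is simple**: `v(f'(u)) = t^(p-1)` -/
theorem MzgNewtonShape.small_deriv {f : K[X]} {p : ℕ} {t : Γ₀} (h : MzgNewtonShape v f p t)
    (hp : 2 ≤ p) (ht : 1 < t) {u : K} (hu1 : v u ≤ 1) :
    v (f.derivative.eval u) = t ^ (p - 1) := by
  have ht0 : (0 : Γ₀) < t := lt_trans zero_lt_one ht
  have htp : 1 < t ^ (p - 1) := one_lt_pow₀ ht (by omega)
  have hdeg : f.derivative.natDegree < p + 1 := by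
    have := natDegree_derivative_lt (p := f) (by rw [h.natDegree]; omega)
    rw [h.natDegree] at this
    exact this
  rw [eval_eq_sum_range' hdeg]
  have hterm0 : v (f.derivative.coeff 0 * u ^ 0) = t ^ (p - 1) := by
    rw [coeff_derivative, pow_zero, mul_one]
    simp only [zero_add, Nat.cast_zero, mul_one]
    exact h.one
  rw [mzg_val_sum_eq_of_dominant v (Finset.range (p + 1)) (fun i => f.derivative.coeff i * u ^ i)
    (i₀ := 0) (Finset.mem_range.mpr (by omega)) (by rw [hterm0]; exact (pow_pos ht0 _).ne')]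
  · exact hterm0
  · intro i hi hi0
    rw [hterm0]
    rw [Finset.mem_range] at hi
    show v (f.derivative.coeff i * u ^ i) < _
    rw [coeff_derivative, map_mul, map_mul, map_pow]
    have hnat : v ((i : K) + 1) ≤ 1 := by
      have : ((i : K) + 1) = ((i + 1 : ℕ) : K) := by push_cast; ring
      rw [this]
      exact mzg_val_natCast_le_one v (i + 1)
    have hxi : v u ^ i ≤ 1 := pow_le_one₀ zero_le hu1
    rcases Nat.lt_or_ge i p with hip | hip
    · have hc := h.mid (i + 1) (by omega) (by omega)
      calc v (f.coeff (i + 1)) * v ((i : K) + 1) * v u ^ i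
          ≤ t ^ (p - (i + 1)) * 1 * 1 :=
            mul_le_mul' (mul_le_mul' hc hnat) hxi
        _ = t ^ (p - (i + 1)) := by rw [mul_one, mul_one]
        _ < t ^ (p - 1) := pow_lt_pow_right₀ ht (by omega)
    · have : i = p := by omega
      subst this
      rw [h.lead, map_one, one_mul]
      calc v ((i : K) + 1) * v u ^ i ≤ 1 * 1 := mul_le_mul' hnat hxi
        _ = 1 := one_mul _
        _ < t ^ (i - 1) := htp

/-- **the large roots**: `1 < v(u) ⇒ v(u)^p = t^(p-1)` -/
theorem MzgNewtonShape.large {f : K[X]} {p : ℕ} {t : Γ₀} (h : MzgNewtonShape v f p t)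
    (hp : 2 ≤ p) (ht : 1 < t) {u : K} (hu : f.eval u = 0) (hu1 : 1 < v u) :
    v u ^ p = t ^ (p - 1) := by
  have hx0 : 0 < v u := lt_trans zero_lt_one hu1
  have ht0 : (0 : Γ₀) < t := lt_trans zero_lt_one ht
  set A := v u ^ (p + 1) with hA
  set B := t ^ (p - 1) * v u with hB
  have hA0 : A ≠ 0 := (pow_pos hx0 _).ne'
  have hB0 : B ≠ 0 := (mul_pos (pow_pos ht0 _) hx0).ne'
  have hA1 : 1 < A := one_lt_pow₀ hu1 (by omega)
  -- middle terms are strictly below max A B
  have hmid : ∀ i, 2 ≤ i → i ≤ p → v (f.coeff i * u ^ i) < max A B := by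
    intro i hi2 hip
    refine lt_of_le_of_lt (h.val_term_le u hi2 hip) ?_
    rcases le_or_gt t (v u) with htx | htx
    · apply lt_max_of_lt_left
      calc t ^ (p - i) * v u ^ i ≤ v u ^ (p - i) * v u ^ i :=
            mul_le_mul_left (pow_le_pow_left₀ ht0.le htx _) _
        _ = v u ^ p := by rw [← pow_add]; congr 1; omega
        _ < v u ^ (p + 1) := pow_lt_pow_right₀ hu1 (by omega)
    · apply lt_max_of_lt_right
      have h1 : v u ^ i = v u ^ (i - 1) * v u := by
        rw [← pow_succ]
        congr 1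
        omega
      rw [h1, ← mul_assoc]
      apply mul_lt_mul_of_pos_right _ hx0
      calc t ^ (p - i) * v u ^ (i - 1) < t ^ (p - i) * t ^ (i - 1) :=
            mul_lt_mul_of_pos_left (pow_lt_pow_left₀ htx hx0.le (by omega)) (pow_pos ht0 _)
        _ = t ^ (p - 1) := by rw [← pow_add]; congr 1; omega
  have hAB : A = B := by
    by_contra hne
    rw [h.eval_eq] at hu
    rcases lt_or_gt_of_ne hne with hlt | hgt
    · -- the linear term dominates
      refine mzg_sum_ne_zero_of_dominant v (Finset.range (p + 2)) (fun i => f.coeff i * u ^ i)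
        (i₀ := 1) (Finset.mem_range.mpr (by omega)) ?_ ?_ hu
      · show v (f.coeff 1 * u ^ 1) ≠ 0
        rw [h.val_term_one]
        exact hB0
      · intro i hi hi1
        rw [Finset.mem_range] at hi
        show v (f.coeff i * u ^ i) < v (f.coeff 1 * u ^ 1)
        rw [h.val_term_one]
        rcases Nat.lt_or_ge i 2 with hi2 | hi2
        · have : i = 0 := by omega
          subst this
          rw [h.val_term_zero]
          exact lt_trans hA1 hlt
        · rcases Nat.lt_or_ge p i with hip | hip
          · have : i = p + 1 := by omega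
            subst this
            rw [h.val_term_top]
            exact hlt
          · have := hmid i hi2 hip
            rwa [max_eq_right hlt.le] at this
    · -- the top term dominates
      refine mzg_sum_ne_zero_of_dominant v (Finset.range (p + 2)) (fun i => f.coeff i * u ^ i)
        (i₀ := p + 1) (Finset.mem_range.mpr (by omega)) ?_ ?_ hu
      · show v (f.coeff (p + 1) * u ^ (p + 1)) ≠ 0
        rw [h.val_term_top]
        exact hA0
      · intro i hi hi1
        rw [Finset.mem_range] at hi
        show v (f.coeff i * u ^ i) < v (f.coeff (p + 1) * u ^ (p + 1))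
        rw [h.val_term_top]
        rcases Nat.lt_or_ge i 2 with hi2 | hi2
        · rcases Nat.eq_zero_or_pos i with h0 | h0
          · subst h0
            rw [h.val_term_zero]
            exact hA1
          · have : i = 1 := by omega
            subst this
            rw [h.val_term_one]
            exact hgt
        · have := hmid i hi2 (by omega)
          rwa [max_eq_left hgt.le] at this
  have h2 : v u ^ p * v u = t ^ (p - 1) * v u := by
    rw [← pow_succ]
    exact hAB
  exact mul_right_cancel₀ hx0.ne' h2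

end

section Unit

variable {K : Type*} [Field K] {Γ₀ : Type*} [LinearOrderedCommGroupWithZero Γ₀]
  {v : Valuation K Γ₀}

/-- a root of a monic polynomial with integral coefficients and unit constant term is a unit -/
theorem mzg_newtonAbs_unit {f : K[X]} (hm : f.Monic) (hint : ∀ i, v (f.coeff i) ≤ 1)
    (h0 : v (f.coeff 0) = 1) {u : K} (hu : f.eval u = 0) : v u = 1 := by
  classical
  have hn : 0 < f.natDegree := by
    by_contra hcon
    have h1 : f.natDegree = 0 := by omega
    have h2 : f = 1 := by
      rw [eq_C_of_natDegree_eq_zero h1] 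
      have := hm.coeff_natDegree
      rw [h1] at this
      rw [this, map_one]
    rw [h2, eval_one] at hu
    exact one_ne_zero hu
  have hu0 : u ≠ 0 := by
    rintro rfl
    rw [← coeff_zero_eq_eval_zero] at hu
    rw [hu, map_zero] at h0
    exact zero_ne_one h0
  have hx0 : 0 < v u := by
    rw [zero_lt_iff]
    exact (map_ne_zero v).mpr hu0
  -- `v u ≤ 1`
  have hle : v u ≤ 1 := by
    by_contra hcon
    push Not at hcon
    rw [eval_eq_sum_range] at hu
    refine mzg_sum_ne_zero_of_dominant v (Finset.range (f.natDegree + 1))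
      (fun i => f.coeff i * u ^ i) (i₀ := f.natDegree) (Finset.self_mem_range_succ _) ?_ ?_ hu
    · show v (f.coeff f.natDegree * u ^ f.natDegree) ≠ 0
      rw [hm.coeff_natDegree, one_mul, map_pow]
      exact (pow_pos hx0 _).ne'
    · intro i hi hine
      rw [Finset.mem_range] at hi
      show v (f.coeff i * u ^ i) < v (f.coeff f.natDegree * u ^ f.natDegree)
      rw [hm.coeff_natDegree, one_mul, map_pow, map_mul, map_pow]
      calc v (f.coeff i) * v u ^ i ≤ 1 * v u ^ i := mul_le_mul_left (hint i) _
        _ = v u ^ i := one_mul _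
        _ < v u ^ f.natDegree := pow_lt_pow_right₀ hcon (by omega)
  -- `1 ≤ v u`
  refine le_antisymm hle ?_
  have hdiv : f = f.divX * X + C (f.coeff 0) := (divX_mul_X_add f).symm
  have hev : f.divX.eval u * u = -(f.coeff 0) := by
    have h1 : f.eval u = f.divX.eval u * u + f.coeff 0 := by
      conv_lhs => rw [hdiv]
      simp
    rw [hu] at h1
    exact eq_neg_of_add_eq_zero_left h1.symm
  have hq : v (f.divX.eval u) ≤ 1 := by
    rw [eval_eq_sum_range]
    apply Valuation.map_sum_le
    intro i _
    rw [map_mul, map_pow, coeff_divX]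
    calc v (f.coeff (i + 1)) * v u ^ i ≤ 1 * 1 :=
          mul_le_mul' (hint _) (pow_le_one₀ hx0.le hle)
      _ = 1 := one_mul _
  have h3 : v (f.divX.eval u) * v u = 1 := by
    rw [← map_mul, hev, Valuation.map_neg, h0]
  calc (1 : Γ₀) = v (f.divX.eval u) * v u := h3.symm
    _ ≤ 1 * v u := mul_le_mul_left hq _
    _ = v u := one_mul _

end Unit

end Fermat.Agent.Mazur
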