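/-
MAZUR (Track M), package (G), piece NP (helper7), part 6: **the Newton polygon of `Ψ_p(X, y)`**.

`Ψ_p = modPsi p ∈ ℤ[j][U]` is the minimal polynomial of the modular unit `U = p^12 Δ(pτ)/Δ(τ)` over
`ℤ[j]`.  By `NP/Shape.lean`, `Ψ_p = U^(p+1) + ∑_{2 ≤ n ≤ p} c_n(j) U^n + c_1(j) U + p^12` with
`deg c_n ≤ p - n`, `c_1 = -j^(p-1) + …`.  Hence over a valued field `(K, v)` with `v(p) = 1`:

* `mzg_newton_small` : `v(y) > 1`, `Ψ_p(u, y) = 0`, `v(u) ≤ 1` ⇒ `v(u) v(y)^(p-1) = 1` and the root is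
  simple (`v(∂_U Ψ_p (u, y)) = v(y)^(p-1)`);
* `mzg_newton_large` : `v(y) > 1`, `Ψ_p(u, y) = 0`, `v(u) > 1` ⇒ `v(u)^p = v(y)^(p-1)`;
* `mzg_newton_unit` : `v(y) ≤ 1`, `Ψ_p(u, y) = 0` ⇒ `v(u) = 1`.

Here `Ψ_p(u, y) = evalEval y u (modPsiK p hp K)` (inner variable `j := y`, outer variable `U := u`).
-/
import Fermat.Agent.Lib.Mazur.G.NP.Shape
import Fermat.Agent.Lib.Mazur.G.NP.Abs

set_option autoImplicit false

namespace Fermat.Agent.Mazur

open Polynomial Fermat.Agent.Igusa

section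

variable {K : Type*} [Field K] {Γ₀ : Type*} [LinearOrderedCommGroupWithZero Γ₀]
  (v : Valuation K Γ₀)

/-- an integer polynomial of degree `≤ d` at a point with `v(y) ≥ 1` has valuation `≤ v(y)^d` -/
theorem mzg_val_eval_int_le (c : ℤ[X]) {y : K} (hy : 1 ≤ v y) {d : ℕ} (hd : c.natDegree ≤ d) :
    v ((c.map (Int.castRingHom K)).eval y) ≤ v y ^ d := by
  rw [eval_map, eval₂_eq_sum_range]
  apply Valuation.map_sum_le
  intro i hi
  rw [map_mul, map_pow]
  have h1 : v ((Int.castRingHom K) (c.coeff i)) ≤ 1 := mzg_val_intCast_le_one v _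
  have hi' : i ≤ d := (Nat.lt_succ_iff.mp (Finset.mem_range.mp hi)).trans hd
  calc v ((Int.castRingHom K) (c.coeff i)) * v y ^ i ≤ 1 * v y ^ i :=
        mul_le_mul_left h1 _
    _ = v y ^ i := one_mul _
    _ ≤ v y ^ d := pow_le_pow_right₀ hy hi'

/-- an integer polynomial at an integral point is integral -/
theorem mzg_val_eval_int_le_one (c : ℤ[X]) {y : K} (hy : v y ≤ 1) :
    v ((c.map (Int.castRingHom K)).eval y) ≤ 1 := by
  rw [eval_map, eval₂_eq_sum_range]
  apply Valuation.map_sum_le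
  intro i _
  rw [map_mul, map_pow]
  have h1 : v ((Int.castRingHom K) (c.coeff i)) ≤ 1 := mzg_val_intCast_le_one v _
  calc v ((Int.castRingHom K) (c.coeff i)) * v y ^ i ≤ 1 * 1 :=
        mul_le_mul' h1 (pow_le_one₀ zero_le hy)
    _ = 1 := one_mul _

/-- an integer polynomial with unit leading coefficient at a point with `v(y) > 1` has valuation
exactly `v(y)^deg` -/
theorem mzg_val_eval_int_eq (c : ℤ[X]) {y : K} (hy : 1 < v y)
    (hlead : v ((c.leadingCoeff : ℤ) : K) = 1) :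
    v ((c.map (Int.castRingHom K)).eval y) = v y ^ c.natDegree := by
  classical
  have hy0 : (0 : Γ₀) < v y := lt_trans zero_lt_one hy
  rw [eval_map, eval₂_eq_sum_range]
  have htop : v ((Int.castRingHom K) (c.coeff c.natDegree) * y ^ c.natDegree)
      = v y ^ c.natDegree := by
    rw [map_mul, map_pow, coeff_natDegree]
    show v ((c.leadingCoeff : ℤ) : K) * _ = _
    rw [hlead, one_mul]
  rw [mzg_val_sum_eq_of_dominant v (Finset.range (c.natDegree + 1))
    (fun i => (Int.castRingHom K) (c.coeff i) * y ^ i) (i₀ := c.natDegree)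
    (Finset.mem_range.mpr (Nat.lt_succ_self _)) ?_ ?_, htop]
  · rw [htop]
    exact (pow_pos hy0 _).ne'
  · intro i hi hne
    rw [htop, map_mul, map_pow]
    have hi' : i < c.natDegree :=
      lt_of_le_of_ne (Nat.lt_succ_iff.mp (Finset.mem_range.mp hi)) hne
    have h1 : v ((Int.castRingHom K) (c.coeff i)) ≤ 1 := mzg_val_intCast_le_one v _
    calc v ((Int.castRingHom K) (c.coeff i)) * v y ^ i ≤ 1 * v y ^ i :=
          mul_le_mul_left h1 _
      _ = v y ^ i := one_mul _
      _ < v y ^ c.natDegree := pow_lt_pow_right₀ hy hi'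

variable {p : ℕ} [NeZero p] (hp : p.Prime)

/-- `Ψ_p(X, y)`, a polynomial in the unit variable over `K` -/
noncomputable def mzgPsiAt (y : K) : K[X] := (modPsiK p hp K).map (evalRingHom y)

theorem mzgPsiAt_eval (y u : K) : (mzgPsiAt hp y).eval u = evalEval y u (modPsiK p hp K) :=
  map_evalRingHom_eval y u _

theorem mzgPsiAt_derivative_eval (y u : K) :
    (derivative (mzgPsiAt hp y)).eval u = evalEval y u (derivative (modPsiK p hp K)) := by
  rw [mzgPsiAt, derivative_map, map_evalRingHom_eval]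

theorem mzgPsiAt_monic (y : K) : (mzgPsiAt hp y).Monic := (modPsiK_monic p hp K).map _

theorem mzgPsiAt_natDegree (y : K) : (mzgPsiAt hp y).natDegree = p + 1 := by
  rw [mzgPsiAt, (modPsiK_monic p hp K).natDegree_map, modPsiK_natDegree]

theorem mzgPsiAt_coeff (y : K) (n : ℕ) :
    (mzgPsiAt hp y).coeff n = (((modPsi p hp).coeff n).map (Int.castRingHom K)).eval y := by
  rw [mzgPsiAt, coeff_map, mzg_modPsiK_coeff]
  rfl

/-- **the coefficient shape of `Ψ_p(X, y)` for `v(y) > 1`** -/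
theorem mzg_newtonShape (hpv : v (p : K) = 1) {y : K} (hy : 1 < v y) :
    MzgNewtonShape v (mzgPsiAt hp y) p (v y) where
  natDegree := mzgPsiAt_natDegree hp y
  lead := by
    have h := (mzgPsiAt_monic hp y).coeff_natDegree
    rwa [mzgPsiAt_natDegree] at h
  mid := fun i hi2 hip => by
    rw [mzgPsiAt_coeff]
    exact mzg_val_eval_int_le v _ hy.le (mzg_modPsi_coeff_mid p hp hi2 hip)
  one := by
    rw [mzgPsiAt_coeff]
    obtain ⟨h1, h2⟩ := mzg_modPsi_coeff_one p hp
    rw [mzg_val_eval_int_eq v _ hy (by rw [h2]; simp), h1]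
  zero := by
    rw [mzgPsiAt_coeff, mzg_modPsi_coeff_zero, Polynomial.map_C, eval_C]
    simp [hpv]

/-- **(NP-I)** the small root over `v(y) > 1`: exact valuation and simplicity -/
theorem mzg_newton_small (hpv : v (p : K) = 1) {u y : K} (hy : 1 < v y)
    (h : evalEval y u (modPsiK p hp K) = 0) (hu : v u ≤ 1) :
    v u * v y ^ (p - 1) = 1 ∧
      v (evalEval y u (derivative (modPsiK p hp K))) = v y ^ (p - 1) := by
  have hS := mzg_newtonShape v hp hpv hy
  rw [← mzgPsiAt_eval hp] at h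
  rw [← mzgPsiAt_derivative_eval hp]
  exact ⟨hS.small hp.two_le hy h hu, hS.small_deriv hp.two_le hy hu⟩

/-- **(NP-II)** the large roots over `v(y) > 1` -/
theorem mzg_newton_large (hpv : v (p : K) = 1) {u y : K} (hy : 1 < v y)
    (h : evalEval y u (modPsiK p hp K) = 0) (hu : 1 < v u) :
    v u ^ p = v y ^ (p - 1) := by
  have hS := mzg_newtonShape v hp hpv hy
  rw [← mzgPsiAt_eval hp] at h
  exact hS.large hp.two_le hy h hu

/-- **(NP-III)** integral `y`: all roots are units -/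
theorem mzg_newton_unit (hpv : v (p : K) = 1) {u y : K} (hy : v y ≤ 1)
    (h : evalEval y u (modPsiK p hp K) = 0) : v u = 1 := by
  rw [← mzgPsiAt_eval hp] at h
  refine mzg_newtonAbs_unit (mzgPsiAt_monic hp y) (fun i => ?_) ?_ h
  · rw [mzgPsiAt_coeff]
    exact mzg_val_eval_int_le_one v _ hy
  · rw [mzgPsiAt_coeff, mzg_modPsi_coeff_zero, Polynomial.map_C, eval_C]
    simp [hpv]

/-- a root of `Ψ_p(X, y)` is never `0` (`v(p) = 1`) -/
theorem mzg_newton_root_ne_zero (hpv : v (p : K) = 1) {u y : K}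
    (h : evalEval y u (modPsiK p hp K) = 0) : u ≠ 0 := by
  rintro rfl
  rw [← mzgPsiAt_eval hp, ← coeff_zero_eq_eval_zero, mzgPsiAt_coeff, mzg_modPsi_coeff_zero,
    Polynomial.map_C, eval_C] at h
  have h2 : v ((Int.castRingHom K) ((p : ℤ) ^ 12)) = 1 := by simp [hpv]
  rw [h, map_zero] at h2
  exact zero_ne_one h2

end

end Fermat.Agent.Mazur
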